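import Fermat.Agent.SmallP.Tools

/-!
Rank zero for three elliptic curves, by elementary infinite descent:
`y²=x(x²-11x-1)`, `y²=x(x²-11x+32)`, `y²=x(x²+6x+13)`.
-/

namespace Fermat.Agent.SmallP

/-! ### `y²=x(x²-11x-1)` -/

lemma five_parity_table :
    ∀ a b c : ZMod 8, c ^ 2 = a ^ 4 - 11 * a ^ 2 * b ^ 2 - b ^ 4 →
      4 * a = 4 ∨ 4 * b = 4 → 4 * a = 4 ∧ 4 * b = 0 := by
  decide +kernel

lemma five_mod5_table : ∀ a b : ZMod 5, a ^ 2 - 22 * b ^ 2 = 0 → a = 0 ∧ b = 0 := by
  decide +kernel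

theorem five_quartic : ∀ {m e n : ℤ}, IsCoprime m e → m ≠ 0 → e ≠ 0 →
    n ^ 2 = m ^ 4 - 11 * m ^ 2 * e ^ 2 - e ^ 4 → False := by
  intro m e
  induction hN : e.natAbs using Nat.strong_induction_on generalizing m e with
  | _ N IH =>
  intro n hco hm he h
  -- parity
  have hpar : Odd m ∧ Even e := by
    have hc := congrArg (Int.cast : ℤ → ZMod 8) h
    push_cast at hc
    have hodd : 4 * (m : ZMod 8) = 4 ∨ 4 * (e : ZMod 8) = 4 := by
      rcases Int.even_or_odd m with hm2 | hm2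
      · right
        apply cast_four_odd
        rw [← Int.not_even_iff_odd]
        intro he2
        exact not_prime_dvd_coprime hco Int.prime_two hm2.two_dvd he2.two_dvd
      · exact Or.inl (cast_four_odd hm2)
    obtain ⟨h1, h2⟩ := five_parity_table _ _ _ hc hodd
    constructor
    · rw [← Int.not_even_iff_odd]; intro hm2
      rw [cast_four_even hm2] at h1; exact absurd h1 (by decide)
    · rw [← Int.not_odd_iff_even]; intro he2
      rw [cast_four_odd he2] at h2; exact absurd h2 (by decide)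
  obtain ⟨hmo, f, rfl⟩ := hpar
  have hf : f ≠ 0 := by rintro rfl; simp at he
  have hmf : IsCoprime m f := by
    have h2 : IsCoprime m (2 * f) := by rwa [two_mul]
    exact IsCoprime.of_mul_right_right h2
  -- A = m² - 22 f², n² = A² - 500 f⁴
  obtain ⟨k, hk⟩ : Odd n := by
    rw [← Int.not_even_iff_odd]; intro hn
    have h1 : Even (n ^ 2) := hn.pow_of_ne_zero two_ne_zero
    rw [h] at h1
    have h2 : Odd (m ^ 4 - 11 * m ^ 2 * (f + f) ^ 2 - (f + f) ^ 4) := by
      have e1 : m ^ 4 - 11 * m ^ 2 * (f + f) ^ 2 - (f + f) ^ 4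
          = m ^ 4 + 2 * (-22 * m ^ 2 * f ^ 2 - 8 * f ^ 4) := by ring
      rw [e1]; exact (hmo.pow).add_even ⟨-22 * m ^ 2 * f ^ 2 - 8 * f ^ 4, by ring⟩
    exact Int.not_even_iff_odd.2 h2 h1
  obtain ⟨l, hl⟩ : Odd (m ^ 2 - 22 * f ^ 2) := hmo.pow.sub_even ⟨11 * f ^ 2, by ring⟩
  have hab : (l - k) * (l + k + 1) = 125 * f ^ 4 := by
    subst hk
    apply mul_left_cancel₀ (four_ne_zero (α := ℤ))
    linear_combination -h - (m ^ 2 - 22 * f ^ 2 + 2 * l + 1) * hl
  have hcop : IsCoprime (l - k) (l + k + 1) := by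
    apply coprime_of_no_prime (fun h0 => by omega)
    intro q hq ha hb
    have hA : q ∣ m ^ 2 - 22 * f ^ 2 := by
      have h' := dvd_add ha hb
      rwa [show l - k + (l + k + 1) = 2 * l + 1 by ring, ← hl] at h'
    have hF : q ∣ 125 * f ^ 4 := hab ▸ ha.mul_right _
    rcases hq.dvd_or_dvd hF with h5 | hf4
    · have h5' : q ∣ (5 : ℤ) := hq.dvd_of_dvd_pow (n := 3) (by norm_num; exact h5)
      have h5p : Prime (5 : ℤ) := Int.prime_iff_natAbs_prime.2 (by norm_num)
      have hass : Associated q 5 := hq.associated_of_dvd h5p h5'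
      have h5A : (5 : ℤ) ∣ m ^ 2 - 22 * f ^ 2 := hass.symm.dvd.trans hA
      have hz := (ZMod.intCast_zmod_eq_zero_iff_dvd _ 5).2 h5A
      push_cast at hz
      obtain ⟨hm5, hf5⟩ := five_mod5_table _ _ hz
      exact not_prime_dvd_coprime hmf h5p ((ZMod.intCast_zmod_eq_zero_iff_dvd m 5).1 hm5)
        ((ZMod.intCast_zmod_eq_zero_iff_dvd f 5).1 hf5)
    · have hqf : q ∣ f := hq.dvd_of_dvd_pow hf4
      have hqm : q ∣ m ^ 2 := by
        have h' := dvd_add hA ((hqf.pow two_ne_zero).mul_left 22)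
        rwa [sub_add_cancel] at h'
      exact not_prime_dvd_coprime hmf hq (hq.dvd_of_dvd_pow hqm) hqf
  obtain ⟨r, s, hr, hs, hrs, hf', hsum, -⟩ :=
    split4 (p := 5) (j := 3) (k := 125) (by norm_num) (by norm_num) hcop hf hab
  have hf2 : f ^ 2 = r ^ 2 * s ^ 2 := by rw [← sq_abs, ← hf']; ring
  have hm2 : m ^ 2 = r ^ 4 + 22 * r ^ 2 * s ^ 2 + 125 * s ^ 4 := by
    rcases hsum with h1 | h1
    · linear_combination hl + h1 + 22 * hf2
    · exfalso
      have : m ^ 2 = -(r ^ 4 + 125 * s ^ 4) + 22 * r ^ 2 * s ^ 2 := by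
        linear_combination hl + h1 + 22 * hf2
      nlinarith [sq_nonneg (r ^ 2 - 11 * s ^ 2), mul_pos (sq_pos_of_ne_zero hs) (sq_pos_of_ne_zero hs),
        sq_nonneg m]
  -- second step
  obtain ⟨i, hi⟩ := hmo
  obtain ⟨j, hj⟩ : Odd (r ^ 2 + 11 * s ^ 2) := by
    rw [← Int.not_even_iff_odd]; intro hev
    have h1 : Even (m ^ 2) := by
      have e1 : m ^ 2 = (r ^ 2 + 11 * s ^ 2) ^ 2 + 2 * (2 * s ^ 4) := by rw [hm2]; ring
      rw [e1]; exact (hev.pow_of_ne_zero two_ne_zero).add ⟨2 * s ^ 4, by ring⟩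
    exact Int.not_even_iff_odd.2 (Odd.pow ⟨i, hi⟩) h1
  have hab2 : (i - j) * (i + j + 1) = 1 * s ^ 4 := by
    apply mul_left_cancel₀ (four_ne_zero (α := ℤ))
    subst hi
    linear_combination hm2 + (r ^ 2 + 11 * s ^ 2 + 2 * j + 1) * hj
  have hcop2 : IsCoprime (i - j) (i + j + 1) := by
    apply coprime_of_no_prime (fun h0 => by omega)
    intro q hq ha hb
    have hA : q ∣ r ^ 2 + 11 * s ^ 2 := by
      have h' := dvd_sub hb ha
      rwa [show i + j + 1 - (i - j) = 2 * j + 1 by ring, ← hj] at h'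
    have hF : q ∣ s ^ 4 := by have h' := ha.mul_right (i + j + 1); rwa [hab2, one_mul] at h'
    have hqs : q ∣ s := hq.dvd_of_dvd_pow hF
    have hqr : q ∣ r ^ 2 := by
      have h' := dvd_sub hA ((hqs.pow two_ne_zero).mul_left 11)
      rwa [add_sub_cancel_right] at h'
    exact not_prime_dvd_coprime hrs hq (hq.dvd_of_dvd_pow hqr) hqs
  obtain ⟨u, v, hu, hv, huv, hs', -, hdiff⟩ :=
    split4 (p := 2) (j := 0) (k := 1) (by norm_num) (by norm_num) hcop2 hs hab2
  have hs2 : s ^ 2 = u ^ 2 * v ^ 2 := by rw [← sq_abs, ← hs']; ring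
  have hlt : ∀ w : ℤ, w.natAbs ≤ (u * v).natAbs → w.natAbs < N := by
    intro w hw
    have h1 : (u * v).natAbs = s.natAbs := by rw [hs', Int.natAbs_abs]
    have h2 : s.natAbs ≤ f.natAbs := by
      calc s.natAbs ≤ (r * s).natAbs := abs_le_mul r s hr
        _ = f.natAbs := by rw [hf', Int.natAbs_abs]
    have h3 : 0 < f.natAbs := Int.natAbs_pos.2 hf
    calc w.natAbs ≤ (u * v).natAbs := hw
      _ = s.natAbs := h1
      _ ≤ f.natAbs := h2
      _ < N := by rw [← hN, ← two_mul, Int.natAbs_mul]; exact lt_mul_of_one_lt_left h3 (by decide)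
  rcases hdiff with h1 | h1
  · refine IH v.natAbs (hlt v (abs_le_mul u v hu)) rfl (n := r) huv hu hv ?_
    linear_combination hj + h1 - 11 * hs2
  · refine IH u.natAbs (hlt u (by rw [mul_comm]; exact abs_le_mul v u hv)) rfl (n := r)
      huv.symm hv hu ?_
    linear_combination hj + h1 - 11 * hs2

/-- The only rational point with finite coordinates on `y²=x(x²-11x-1)` has `x = 0`. -/
theorem five_curve {x y : ℚ} (h : y ^ 2 = x * (x ^ 2 - 11 * x - 1)) : x = 0 := by
  by_contra hx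
  obtain ⟨d, p, hd, hdB, hp, hxp⟩ :=
    square_class (A := -11) (B := -1) (y := y) hx (by rw [h]; push_cast; ring)
  have hd1 : d = 1 ∨ d = -1 := by
    have := Int.natAbs_dvd_natAbs.2 hdB
    simp at this
    omega
  rcases hd1 with rfl | rfl
  · obtain ⟨m, e, n, hco, hm, he, -, hn⟩ :=
      quartic_square (A := 1) (B := -11) (C := -1) (w := y / p) hp
        (by rw [div_pow, h, hxp]; push_cast; field_simp; ring)
    exact five_quartic (n := n) hco hm he (by linear_combination hn)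
  · obtain ⟨m, e, n, hco, hm, he, -, hn⟩ :=
      quartic_square (A := -1) (B := -11) (C := 1) (w := y / p) hp
        (by rw [div_pow, h, hxp]; push_cast; field_simp; ring)
    exact five_quartic (n := n) hco.symm he hm (by linear_combination hn)

/-! ### `y²=x(x²-11x+32)` -/

theorem seven_quartic : ∀ {m e n : ℤ}, IsCoprime m e → m ≠ 0 → e ≠ 0 →
    n ^ 2 = m ^ 4 - 11 * m ^ 2 * e ^ 2 + 32 * e ^ 4 → m ^ 2 = 4 ∧ e ^ 2 = 1 := by
  intro m e
  induction hN : e.natAbs using Nat.strong_induction_on generalizing m e with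
  | _ N IH =>
  intro n hco hm he h
  have h7p : Prime (7 : ℤ) := Int.prime_iff_natAbs_prime.2 (by norm_num)
  rcases Int.even_or_odd e with ⟨f, rfl⟩ | heo
  · -- `e` even: impossible
    exfalso
    have hf : f ≠ 0 := by rintro rfl; simp at he
    have h2f : IsCoprime m (2 * f) := by rwa [two_mul]
    have hmf : IsCoprime m f := h2f.of_mul_right_right
    have hmo : Odd m := by
      rw [← Int.not_even_iff_odd]; intro hm2
      exact not_prime_dvd_coprime h2f Int.prime_two hm2.two_dvd (dvd_mul_right 2 f)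
    obtain ⟨l, hl⟩ : Odd (m ^ 2 - 22 * f ^ 2) := hmo.pow.sub_even ⟨11 * f ^ 2, by ring⟩
    obtain ⟨k, hk⟩ : Odd n := by
      rw [← Int.not_even_iff_odd]; intro hn
      have h1 : Even (n ^ 2) := hn.pow_of_ne_zero two_ne_zero
      have e1 : n ^ 2 = (m ^ 2 - 22 * f ^ 2) ^ 2 + 2 * (14 * f ^ 4) := by rw [h]; ring
      rw [e1] at h1
      exact Int.not_even_iff_odd.2
        (((Odd.pow ⟨l, hl⟩).add_even ⟨14 * f ^ 4, by ring⟩)) h1
    have hab : (k - l) * (k + l + 1) = 7 * f ^ 4 := by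
      subst hk
      apply mul_left_cancel₀ (four_ne_zero (α := ℤ))
      linear_combination h + (m ^ 2 - 22 * f ^ 2 + 2 * l + 1) * hl
    have hcop : IsCoprime (k - l) (k + l + 1) := by
      apply coprime_of_no_prime (fun h0 => by omega)
      intro q hq ha hb
      have hA : q ∣ m ^ 2 - 22 * f ^ 2 := by
        have h' := dvd_sub hb ha
        rwa [show k + l + 1 - (k - l) = 2 * l + 1 by ring, ← hl] at h'
      have hqf : q ∣ f := by
        rcases hq.dvd_or_dvd (hab ▸ ha.mul_right _ : q ∣ 7 * f ^ 4) with h7 | hf4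
        · have hass : Associated q 7 := hq.associated_of_dvd h7p h7
          have h49 : (7 : ℤ) * 7 ∣ 7 * f ^ 4 :=
            hab ▸ mul_dvd_mul (hass.symm.dvd.trans ha) (hass.symm.dvd.trans hb)
          exact hass.dvd.trans
            (h7p.dvd_of_dvd_pow (Int.dvd_of_mul_dvd_mul_left (by norm_num) h49))
        · exact hq.dvd_of_dvd_pow hf4
      have hqm : q ∣ m ^ 2 := by
        have h' := dvd_add hA ((hqf.pow two_ne_zero).mul_left 22)
        rwa [sub_add_cancel] at h'
      exact not_prime_dvd_coprime hmf hq (hq.dvd_of_dvd_pow hqm) hqf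
    obtain ⟨r, s, hr, hs, hrs, hf', -, hdiff⟩ :=
      split4 (p := 7) (j := 1) (k := 7) (by norm_num) (by norm_num) hcop hf hab
    have hf2 : f ^ 2 = r ^ 2 * s ^ 2 := by rw [← sq_abs, ← hf']; ring
    have hA : (r ^ 2 + 11 * s ^ 2) ^ 2 = m ^ 2 + 128 * s ^ 4 := by
      rcases hdiff with h1 | h1
      · linear_combination -hl - h1 - 22 * hf2
      · exfalso
        have hm2 : m ^ 2 = -r ^ 4 + 22 * r ^ 2 * s ^ 2 + 7 * s ^ 4 := by
          linear_combination hl + h1 + 22 * hf2
        obtain ⟨i, hi⟩ := odd_sq_eight m hmo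
        rcases Int.even_or_odd r with hr2 | hr2
        · have hs2 : Odd s := by
            rw [← Int.not_even_iff_odd]; intro hs2
            exact not_prime_dvd_coprime hrs Int.prime_two hr2.two_dvd hs2.two_dvd
          obtain ⟨r', rfl⟩ := hr2
          obtain ⟨b, hb⟩ := odd_sq_eight s hs2
          have e4 : s ^ 4 = (8 * b + 1) ^ 2 := by rw [← hb]; ring
          rw [hb, e4, hi] at hm2
          ring_nf at hm2
          omega
        · obtain ⟨a, ha⟩ := odd_sq_eight r hr2
          rcases Int.even_or_odd s with hs2 | hs2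
          · obtain ⟨s', rfl⟩ := hs2
            have e4 : r ^ 4 = (8 * a + 1) ^ 2 := by rw [← ha]; ring
            rw [ha, e4, hi] at hm2
            ring_nf at hm2
            omega
          · obtain ⟨b, hb⟩ := odd_sq_eight s hs2
            have e4 : r ^ 4 = (8 * a + 1) ^ 2 := by rw [← ha]; ring
            have e4' : s ^ 4 = (8 * b + 1) ^ 2 := by rw [← hb]; ring
            rw [ha, hb, e4, e4', hi] at hm2
            ring_nf at hm2
            omega
    obtain ⟨i, hi⟩ : Odd (r ^ 2 + 11 * s ^ 2) := by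
      rw [← Int.not_even_iff_odd]; intro hev
      have h1 : Even (m ^ 2 + 128 * s ^ 4) := hA ▸ hev.pow_of_ne_zero two_ne_zero
      exact Int.not_even_iff_odd.2 (hmo.pow.add_even ⟨64 * s ^ 4, by ring⟩) h1
    obtain ⟨j, hj⟩ := hmo
    have hab2 : (i - j) * (i + j + 1) = 32 * s ^ 4 := by
      subst hj
      apply mul_left_cancel₀ (four_ne_zero (α := ℤ))
      linear_combination hA - (r ^ 2 + 11 * s ^ 2 + 2 * i + 1) * hi
    have hcop2 : IsCoprime (i - j) (i + j + 1) := by
      apply coprime_of_no_prime (fun h0 => by omega)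
      intro q hq ha hb
      have hA : q ∣ r ^ 2 + 11 * s ^ 2 := by
        have h' := dvd_add ha hb
        rwa [show i - j + (i + j + 1) = 2 * i + 1 by ring, ← hi] at h'
      rcases hq.dvd_or_dvd (hab2 ▸ ha.mul_right _ : q ∣ 32 * s ^ 4) with h2 | hs4
      · have h2' : q ∣ (2 : ℤ) := hq.dvd_of_dvd_pow (n := 5) (by norm_num; exact h2)
        have hass : Associated q 2 := hq.associated_of_dvd Int.prime_two h2'
        have h2A : (2 : ℤ) ∣ r ^ 2 + 11 * s ^ 2 := hass.symm.dvd.trans hA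
        exact Int.not_even_iff_odd.2 ⟨i, hi⟩ (even_iff_two_dvd.2 h2A)
      · have hqs : q ∣ s := hq.dvd_of_dvd_pow hs4
        have hqr : q ∣ r ^ 2 := by
          have h' := dvd_sub hA ((hqs.pow two_ne_zero).mul_left 11)
          rwa [add_sub_cancel_right] at h'
        exact not_prime_dvd_coprime hrs hq (hq.dvd_of_dvd_pow hqr) hqs
    obtain ⟨u, v, hu, hv, huv, hs', hsum, -⟩ :=
      split4 (p := 2) (j := 5) (k := 32) (by norm_num) (by norm_num) hcop2 hs hab2
    have hs2 : s ^ 2 = u ^ 2 * v ^ 2 := by rw [← sq_abs, ← hs']; ring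
    have hsum' : r ^ 2 + 11 * s ^ 2 = u ^ 4 + 32 * v ^ 4 := by
      rcases hsum with h1 | h1
      · linear_combination hi + h1
      · exfalso
        have e1 : r ^ 2 + 11 * s ^ 2 = -(u ^ 4 + 32 * v ^ 4) := by linear_combination hi + h1
        have : 0 < r ^ 2 := by positivity
        have : 0 ≤ u ^ 4 + 32 * v ^ 4 := by positivity
        nlinarith [sq_nonneg s]
    have hlt : v.natAbs < N := by
      have h1 : (u * v).natAbs = s.natAbs := by rw [hs', Int.natAbs_abs]
      have h2 : s.natAbs ≤ f.natAbs := by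
        calc s.natAbs ≤ (r * s).natAbs := abs_le_mul r s hr
          _ = f.natAbs := by rw [hf', Int.natAbs_abs]
      have h3 : 0 < f.natAbs := Int.natAbs_pos.2 hf
      calc v.natAbs ≤ (u * v).natAbs := abs_le_mul u v hu
        _ = s.natAbs := h1
        _ ≤ f.natAbs := h2
        _ < N := by rw [← hN, ← two_mul, Int.natAbs_mul]; exact lt_mul_of_one_lt_left h3 (by decide)
    obtain ⟨hu4, -⟩ := IH v.natAbs hlt rfl (n := r) huv hu hv
      (by linear_combination hsum' - 11 * hs2)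
    have h4 : Even (u ^ 4) := ⟨8, by linear_combination (u ^ 2 + 4) * hu4⟩
    exact Int.not_even_iff_odd.2
      (show Odd (r ^ 2 + 11 * s ^ 2) from ⟨i, hi⟩)
      (hsum' ▸ h4.add ⟨16 * v ^ 4, by ring⟩)
  · -- `e` odd
    obtain ⟨l, hl⟩ : Odd (2 * m ^ 2 - 11 * e ^ 2) :=
      (even_two_mul (m ^ 2)).sub_odd (Odd.mul ⟨5, by norm_num⟩ heo.pow)
    have hab : (2 * n - (2 * l + 1)) * (2 * n + (2 * l + 1)) = 7 * e ^ 4 := by
      linear_combination 4 * h + (2 * m ^ 2 - 11 * e ^ 2 + 2 * l + 1) * hl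
    have hcop : IsCoprime (2 * n - (2 * l + 1)) (2 * n + (2 * l + 1)) := by
      apply coprime_of_no_prime (fun h0 => by omega)
      intro q hq ha hb
      have hqe : q ∣ e := by
        rcases hq.dvd_or_dvd (hab ▸ ha.mul_right _ : q ∣ 7 * e ^ 4) with h7 | he4
        · have hass : Associated q 7 := hq.associated_of_dvd h7p h7
          have h49 : (7 : ℤ) * 7 ∣ 7 * e ^ 4 :=
            hab ▸ mul_dvd_mul (hass.symm.dvd.trans ha) (hass.symm.dvd.trans hb)
          exact hass.dvd.trans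
            (h7p.dvd_of_dvd_pow (Int.dvd_of_mul_dvd_mul_left (by norm_num) h49))
        · exact hq.dvd_of_dvd_pow he4
      have h2T : q ∣ 2 * (2 * m ^ 2 - 11 * e ^ 2) := by
        have h' := dvd_sub hb ha
        rwa [show 2 * n + (2 * l + 1) - (2 * n - (2 * l + 1)) = 2 * (2 * l + 1) by ring, ← hl]
          at h'
      have h4m : q ∣ 2 ^ 2 * m ^ 2 := by
        have h' := dvd_add h2T ((hqe.pow two_ne_zero).mul_left 22)
        rwa [show 2 * (2 * m ^ 2 - 11 * e ^ 2) + 22 * e ^ 2 = 2 ^ 2 * m ^ 2 by ring] at h'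
      rcases hq.dvd_or_dvd h4m with h4 | hm2
      · have hass : Associated q 2 :=
          hq.associated_of_dvd Int.prime_two (hq.dvd_of_dvd_pow h4)
        exact Int.not_even_iff_odd.2 heo (even_iff_two_dvd.2 (hass.symm.dvd.trans hqe))
      · exact not_prime_dvd_coprime hco hq (hq.dvd_of_dvd_pow hm2) hqe
    obtain ⟨r, s, hr, hs, hrs, he', -, hdiff⟩ :=
      split4 (p := 7) (j := 1) (k := 7) (by norm_num) (by norm_num) hcop he hab
    have he2 : e ^ 2 = r ^ 2 * s ^ 2 := by rw [← sq_abs, ← he']; ring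
    have hrso : Odd (r * s) := by rw [he']; rcases abs_choice e with hh | hh <;> rw [hh]
                                  exacts [heo, heo.neg]
    obtain ⟨a, ha⟩ := odd_sq_eight r (Int.odd_mul.1 hrso).1
    obtain ⟨b, hb⟩ := odd_sq_eight s (Int.odd_mul.1 hrso).2
    have hA : (r ^ 2 + 11 * s ^ 2) ^ 2 = 4 * m ^ 2 + 128 * s ^ 4 := by
      rcases hdiff with h1 | h1
      · linear_combination -2 * hl - h1 - 22 * he2
      · exfalso
        have hm2 : 4 * m ^ 2 = -r ^ 4 + 22 * r ^ 2 * s ^ 2 + 7 * s ^ 4 := by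
          linear_combination 2 * hl + h1 + 22 * he2
        have e4 : r ^ 4 = (8 * a + 1) ^ 2 := by rw [← ha]; ring
        have e4' : s ^ 4 = (8 * b + 1) ^ 2 := by rw [← hb]; ring
        rw [ha, hb, e4, e4'] at hm2
        have := sq_four_mod m
        ring_nf at hm2
        omega
    -- `m = 2 M`, `(A/4)² = M² + 8 s⁴`
    set i := a + 11 * b + 1 with hi
    have hAi : r ^ 2 + 11 * s ^ 2 = 4 * (2 * i + 1) := by rw [ha, hb, hi]; ring
    rw [hAi] at hA
    obtain ⟨M, rfl⟩ : Even m := by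
      rw [← Int.not_odd_iff_even]; intro hmo
      obtain ⟨c, hc⟩ := odd_sq_eight m hmo
      rw [hc] at hA; ring_nf at hA; omega
    obtain ⟨j, rfl⟩ : Odd M := by
      rw [← Int.not_even_iff_odd]; rintro ⟨M', rfl⟩
      ring_nf at hA; omega
    have hab2 : (i - j) * (i + j + 1) = 2 * s ^ 4 := by
      apply mul_left_cancel₀ (four_ne_zero (α := ℤ))
      apply mul_left_cancel₀ (show (16 : ℤ) ≠ 0 by norm_num)
      linear_combination hA
    have hcop2 : IsCoprime (i - j) (i + j + 1) := by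
      apply coprime_of_no_prime (fun h0 => by omega)
      intro q hq hqa hqb
      have hA' : q ∣ 2 * i + 1 := by
        have h' := dvd_add hqa hqb
        rwa [show i - j + (i + j + 1) = 2 * i + 1 by ring] at h'
      have hA : q ∣ r ^ 2 + 11 * s ^ 2 := hAi ▸ hA'.mul_left 4
      rcases hq.dvd_or_dvd (hab2 ▸ hqa.mul_right _ : q ∣ 2 * s ^ 4) with h2 | hs4
      · have hass : Associated q 2 := hq.associated_of_dvd Int.prime_two h2
        have := hass.symm.dvd.trans hA'
        omega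
      · have hqs : q ∣ s := hq.dvd_of_dvd_pow hs4
        have hqr : q ∣ r ^ 2 := by
          have h' := dvd_sub hA ((hqs.pow two_ne_zero).mul_left 11)
          rwa [add_sub_cancel_right] at h'
        exact not_prime_dvd_coprime hrs hq (hq.dvd_of_dvd_pow hqr) hqs
    obtain ⟨u, v, hu, hv, huv, hs', hsum, -⟩ :=
      split4 (p := 2) (j := 1) (k := 2) (by norm_num) (by norm_num) hcop2 hs hab2
    have hs2 : s ^ 2 = u ^ 2 * v ^ 2 := by rw [← sq_abs, ← hs']; ring
    have hsum' : r ^ 2 + 11 * s ^ 2 = 4 * u ^ 4 + 8 * v ^ 4 := by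
      rcases hsum with h1 | h1
      · linear_combination hAi + 4 * h1
      · exfalso
        have e1 : r ^ 2 + 11 * s ^ 2 = -(4 * u ^ 4 + 8 * v ^ 4) := by
          linear_combination hAi + 4 * h1
        have : 0 < r ^ 2 := by positivity
        have : 0 ≤ 4 * u ^ 4 + 8 * v ^ 4 := by positivity
        nlinarith [sq_nonneg s]
    have hso : Odd (u * v) := by
      rw [hs']; rcases abs_choice s with hh | hh <;> rw [hh]
      exacts [(Int.odd_mul.1 hrso).2, (Int.odd_mul.1 hrso).2.neg]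
    have hco' : IsCoprime (2 * u) v := by
      refine IsCoprime.mul_left ?_ huv
      obtain ⟨c, hc⟩ := (Int.odd_mul.1 hso).2
      exact ⟨-c, 1, by rw [hc]; ring⟩
    have heq : (2 * r) ^ 2 = (2 * u) ^ 4 - 11 * (2 * u) ^ 2 * v ^ 2 + 32 * v ^ 4 := by
      linear_combination 4 * hsum' - 44 * hs2
    have hle1 : s.natAbs ≤ N := by
      calc s.natAbs ≤ (r * s).natAbs := abs_le_mul r s hr
        _ = N := by rw [he', Int.natAbs_abs, hN]
    have hvs : (u * v).natAbs = s.natAbs := by rw [hs', Int.natAbs_abs]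
    have hrN : r.natAbs * s.natAbs = N := by rw [← Int.natAbs_mul, he', Int.natAbs_abs, hN]
    have hvle := abs_le_mul u v hu
    have hu2 : u ^ 2 = 1 ∧ v ^ 2 = 1 := by
      rcases lt_or_eq_of_le (hvle.trans (hvs.le.trans hle1)) with hlt | heqN
      · obtain ⟨h1, h2⟩ := IH v.natAbs hlt rfl (n := 2 * r) hco' (by simpa using hu) hv heq
        exact ⟨by linarith [show 4 * u ^ 2 = 4 by linear_combination h1], h2⟩
      · have hN0 : 0 < N := heqN ▸ Int.natAbs_pos.2 hv
        rw [Int.natAbs_mul] at hvs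
        have hu1 : u.natAbs = 1 := by
          have : u.natAbs * v.natAbs ≤ 1 * v.natAbs := by rw [hvs, one_mul, heqN]; exact hle1
          have := Nat.le_of_mul_le_mul_right this (Int.natAbs_pos.2 hv)
          have := Int.natAbs_pos.2 hu
          omega
        have hr1 : r.natAbs = 1 := by
          rw [hu1, one_mul, heqN] at hvs
          rw [← hvs] at hrN
          exact Nat.eq_of_mul_eq_mul_right hN0 (by rw [hrN, one_mul])
        have hu2 : u ^ 2 = 1 := by rw [← Int.natAbs_sq, hu1]; norm_num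
        have hr2 : r ^ 2 = 1 := by rw [← Int.natAbs_sq, hr1]; norm_num
        refine ⟨hu2, ?_⟩
        have h3 : (v ^ 2 - 1) * (8 * v ^ 2 - 3) = 0 := by
          linear_combination -hsum' + 11 * hs2 + hr2 + (11 * v ^ 2 - 4 * u ^ 2 - 4) * hu2
        rcases mul_eq_zero.1 h3 with h4 | h4
        · linarith
        · exfalso; have := sq_four_mod v; omega
    obtain ⟨hu2, hv2⟩ := hu2
    have hs1 : s ^ 2 = 1 := by rw [hs2, hu2, hv2]; norm_num
    have hr1 : r ^ 2 = 1 := by
      linear_combination hsum' - 11 * hs1 + 4 * (u ^ 2 + 1) * hu2 + 8 * (v ^ 2 + 1) * hv2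
    refine ⟨?_, by rw [he2, hr1, hs1]; norm_num⟩
    rw [← hAi, hr1, hs1, show s ^ 4 = (s ^ 2) ^ 2 by ring, hs1] at hA
    linarith

/-- Rational points of `y²=x(x²-11x+32)`. -/
theorem seven_curve {x y : ℚ} (h : y ^ 2 = x * (x ^ 2 - 11 * x + 32)) :
    x = 0 ∨ x = 4 ∨ x = 8 := by
  rcases eq_or_ne x 0 with hx | hx
  · exact Or.inl hx
  have key : ∀ {p w : ℚ}, p ≠ 0 → w ^ 2 = p ^ 4 - 11 * p ^ 2 + 32 → p ^ 2 = 4 := by
    intro p w hp hw
    obtain ⟨m, e, n, hco, hm, he, hpe, hn⟩ :=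
      quartic_square (A := 1) (B := -11) (C := 32) (w := w) hp (by rw [hw]; push_cast; ring)
    obtain ⟨hm2, he2⟩ := seven_quartic (n := n) hco hm he (by linear_combination hn)
    rw [hpe, div_pow, ← Int.cast_pow, ← Int.cast_pow, hm2, he2]; norm_num
  obtain ⟨d, p, hd, hdB, hp, hxp⟩ :=
    square_class (A := -11) (B := 32) (y := y) hx (by rw [h]; push_cast; ring)
  have hQ : 0 < x ^ 2 - 11 * x + 32 := by nlinarith [sq_nonneg (2 * x - 11)]
  have hxpos : 0 < x := by
    rcases lt_or_gt_of_ne hx with h0 | h0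
    · have := mul_neg_of_neg_of_pos h0 hQ
      nlinarith [sq_nonneg y]
    · exact h0
  have hd0 : 0 < d := by
    have hp2 : 0 < p ^ 2 := by positivity
    rw [hxp] at hxpos
    exact_mod_cast pos_of_mul_pos_left hxpos hp2.le
  have hd12 : d = 1 ∨ d = 2 := by
    have hd2 : d ∣ 2 := (hd.dvd_pow_iff_dvd (n := 5) (by norm_num)).1 (by norm_num; exact hdB)
    have := Int.le_of_dvd two_pos hd2
    omega
  rcases hd12 with rfl | rfl
  · refine Or.inr (Or.inl ?_)
    rw [hxp]; push_cast; rw [key hp (w := y / p)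
      (by rw [div_pow, h, hxp]; push_cast; field_simp), one_mul]
  · refine Or.inr (Or.inr ?_)
    have h4 := key (p := 4 / p) (div_ne_zero (by norm_num) hp) (w := 2 * y / p ^ 3)
      (by rw [div_pow, mul_pow, h, hxp]; push_cast; field_simp; ring)
    have hp4 : p ^ 2 = 4 := by field_simp at h4; linarith
    rw [hxp, hp4]; norm_num

/-! ### `y²=x(x²+6x+13)` -/

/-- One descent step on the isogenous quartic. -/
lemma thirteen_step {R S m : ℤ} (hco : IsCoprime R S) (hR : R ≠ 0) (hS : S ≠ 0)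
    (h : m ^ 2 = S ^ 4 - 3 * S ^ 2 * R ^ 2 - R ^ 4) :
    ∃ g h' n : ℤ, IsCoprime g h' ∧ g ≠ 0 ∧ h' ≠ 0 ∧
      n ^ 2 = g ^ 4 + 6 * g ^ 2 * h' ^ 2 + 13 * h' ^ 4 ∧ h'.natAbs < (R * S).natAbs := by
  have h13 : Prime (13 : ℤ) := Int.prime_iff_natAbs_prime.2 (by norm_num)
  rcases Int.even_or_odd R with ⟨f, rfl⟩ | hRo
  · have hf : f ≠ 0 := by rintro rfl; simp at hR
    have h2 : IsCoprime (2 * f) S := by rwa [two_mul]
    have hfS : IsCoprime f S := h2.of_mul_left_right
    have hSo : Odd S := by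
      rw [← Int.not_even_iff_odd]; intro hS2
      exact not_prime_dvd_coprime h2 Int.prime_two (dvd_mul_right 2 f) hS2.two_dvd
    obtain ⟨l, hl⟩ : Odd (S ^ 2 - 6 * f ^ 2) := hSo.pow.sub_even ⟨3 * f ^ 2, by ring⟩
    obtain ⟨k, hk⟩ : Odd m := by
      rw [← Int.not_even_iff_odd]; intro hev
      have h1 : Even (m ^ 2) := hev.pow_of_ne_zero two_ne_zero
      rw [h] at h1
      have e1 : S ^ 4 - 3 * S ^ 2 * (f + f) ^ 2 - (f + f) ^ 4
          = S ^ 4 + 2 * (-6 * S ^ 2 * f ^ 2 - 8 * f ^ 4) := by ring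
      rw [e1] at h1
      exact Int.not_even_iff_odd.2
        (hSo.pow.add_even ⟨-6 * S ^ 2 * f ^ 2 - 8 * f ^ 4, by ring⟩) h1
    have hab : (l - k) * (l + k + 1) = 13 * f ^ 4 := by
      subst hk
      apply mul_left_cancel₀ (four_ne_zero (α := ℤ))
      linear_combination -h - (S ^ 2 - 6 * f ^ 2 + 2 * l + 1) * hl
    have hcop : IsCoprime (l - k) (l + k + 1) := by
      apply coprime_of_no_prime (fun h0 => by omega)
      intro q hq ha hb
      have hA : q ∣ S ^ 2 - 6 * f ^ 2 := by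
        have h' := dvd_add ha hb
        rwa [show l - k + (l + k + 1) = 2 * l + 1 by ring, ← hl] at h'
      have hqf : q ∣ f := by
        rcases hq.dvd_or_dvd (hab ▸ ha.mul_right _ : q ∣ 13 * f ^ 4) with h7 | hf4
        · have hass : Associated q 13 := hq.associated_of_dvd h13 h7
          have h49 : (13 : ℤ) * 13 ∣ 13 * f ^ 4 :=
            hab ▸ mul_dvd_mul (hass.symm.dvd.trans ha) (hass.symm.dvd.trans hb)
          exact hass.dvd.trans
            (h13.dvd_of_dvd_pow (Int.dvd_of_mul_dvd_mul_left (by norm_num) h49))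
        · exact hq.dvd_of_dvd_pow hf4
      have hqS : q ∣ S ^ 2 := by
        have h' := dvd_add hA ((hqf.pow two_ne_zero).mul_left 6)
        rwa [sub_add_cancel] at h'
      exact not_prime_dvd_coprime hfS hq hqf (hq.dvd_of_dvd_pow hqS)
    obtain ⟨g, h', hg, hh', hgh, hf', hsum, -⟩ :=
      split4 (p := 13) (j := 1) (k := 13) (by norm_num) (by norm_num) hcop hf hab
    have hf2 : f ^ 2 = g ^ 2 * h' ^ 2 := by rw [← sq_abs, ← hf']; ring
    refine ⟨g, h', S, hgh, hg, hh', ?_, ?_⟩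
    · rcases hsum with h1 | h1
      · linear_combination hl + h1 + 6 * hf2
      · exfalso
        have e1 : S ^ 2 = -(g ^ 4 + 13 * h' ^ 4) + 6 * g ^ 2 * h' ^ 2 := by
          linear_combination hl + h1 + 6 * hf2
        nlinarith [sq_nonneg (g ^ 2 - 3 * h' ^ 2), sq_nonneg (h' ^ 2), sq_pos_of_ne_zero hS]
    · have h1 : h'.natAbs ≤ f.natAbs := by
        calc h'.natAbs ≤ (g * h').natAbs := abs_le_mul g h' hg
          _ = f.natAbs := by rw [hf', Int.natAbs_abs]
      have h2 : (f + f).natAbs ≤ ((f + f) * S).natAbs := by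
        rw [mul_comm]; exact abs_le_mul S _ hS
      have := Int.natAbs_pos.2 hf
      omega
  · obtain ⟨l, hl⟩ : Odd (2 * S ^ 2 - 3 * R ^ 2) :=
      (even_two_mul (S ^ 2)).sub_odd (Odd.mul ⟨1, by norm_num⟩ hRo.pow)
    have hab : (2 * l + 1 - 2 * m) * (2 * l + 1 + 2 * m) = 13 * R ^ 4 := by
      linear_combination -4 * h - (2 * S ^ 2 - 3 * R ^ 2 + 2 * l + 1) * hl
    have hcop : IsCoprime (2 * l + 1 - 2 * m) (2 * l + 1 + 2 * m) := by
      apply coprime_of_no_prime (fun h0 => by omega)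
      intro q hq ha hb
      have hqR : q ∣ R := by
        rcases hq.dvd_or_dvd (hab ▸ ha.mul_right _ : q ∣ 13 * R ^ 4) with h7 | hf4
        · have hass : Associated q 13 := hq.associated_of_dvd h13 h7
          have h49 : (13 : ℤ) * 13 ∣ 13 * R ^ 4 :=
            hab ▸ mul_dvd_mul (hass.symm.dvd.trans ha) (hass.symm.dvd.trans hb)
          exact hass.dvd.trans
            (h13.dvd_of_dvd_pow (Int.dvd_of_mul_dvd_mul_left (by norm_num) h49))
        · exact hq.dvd_of_dvd_pow hf4
      have hA : q ∣ 2 * (2 * S ^ 2 - 3 * R ^ 2) := by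
        have h' := dvd_add ha hb
        rwa [show 2 * l + 1 - 2 * m + (2 * l + 1 + 2 * m) = 2 * (2 * l + 1) by ring, ← hl] at h'
      have h4S : q ∣ 2 ^ 2 * S ^ 2 := by
        have h' := dvd_add hA ((hqR.pow two_ne_zero).mul_left 6)
        rwa [show 2 * (2 * S ^ 2 - 3 * R ^ 2) + 6 * R ^ 2 = 2 ^ 2 * S ^ 2 by ring] at h'
      rcases hq.dvd_or_dvd h4S with h4 | hS2
      · have hass : Associated q 2 :=
          hq.associated_of_dvd Int.prime_two (hq.dvd_of_dvd_pow h4)
        exact Int.not_even_iff_odd.2 hRo (even_iff_two_dvd.2 (hass.symm.dvd.trans hqR))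
      · exact not_prime_dvd_coprime hco hq hqR (hq.dvd_of_dvd_pow hS2)
    obtain ⟨g, h', hg, hh', hgh, hR', hsum, -⟩ :=
      split4 (p := 13) (j := 1) (k := 13) (by norm_num) (by norm_num) hcop hR hab
    have hR2 : R ^ 2 = g ^ 2 * h' ^ 2 := by rw [← sq_abs, ← hR']; ring
    have heq : (2 * S) ^ 2 = g ^ 4 + 6 * g ^ 2 * h' ^ 2 + 13 * h' ^ 4 := by
      rcases hsum with h1 | h1
      · linear_combination 2 * hl + h1 + 6 * hR2
      · exfalso
        have e1 : (2 * S) ^ 2 = -(g ^ 4 + 13 * h' ^ 4) + 6 * g ^ 2 * h' ^ 2 := by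
          linear_combination 2 * hl + h1 + 6 * hR2
        nlinarith [sq_nonneg (g ^ 2 - 3 * h' ^ 2), sq_nonneg (h' ^ 2), sq_pos_of_ne_zero hS]
    refine ⟨g, h', 2 * S, hgh, hg, hh', heq, ?_⟩
    have h1 : (g * h').natAbs = R.natAbs := by rw [hR', Int.natAbs_abs]
    rw [Int.natAbs_mul] at h1 ⊢
    rw [← h1]
    by_contra hle
    push Not at hle
    have h2 : g.natAbs * h'.natAbs * S.natAbs ≤ 1 * h'.natAbs := by rw [one_mul]; exact hle
    have hg1 := Int.natAbs_pos.2 hg
    have hS1 := Int.natAbs_pos.2 hS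
    rw [mul_right_comm] at h2
    have h3 := Nat.le_of_mul_le_mul_right h2 (Int.natAbs_pos.2 hh')
    have h4 : g.natAbs * S.natAbs = 1 := le_antisymm h3 (Nat.mul_pos hg1 hS1)
    obtain ⟨h5, h6⟩ := mul_eq_one.1 h4
    have e1 : g ^ 2 = 1 := by rw [← Int.natAbs_sq, h5]; norm_num
    have e2 : S ^ 2 = 1 := by rw [← Int.natAbs_sq, h6]; norm_num
    rw [mul_pow, e2, show g ^ 4 = (g ^ 2) ^ 2 by ring, e1] at heq
    nlinarith [sq_pos_of_ne_zero hh', sq_nonneg (h' ^ 2 - 1)]

theorem thirteen_quartic : ∀ {m e n : ℤ}, IsCoprime m e → m ≠ 0 → e ≠ 0 →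
    n ^ 2 = m ^ 4 + 6 * m ^ 2 * e ^ 2 + 13 * e ^ 4 → False := by
  intro m e
  induction hN : e.natAbs using Nat.strong_induction_on generalizing m e with
  | _ N IH =>
  intro n hco hm he h
  -- `A = m² + 3 e²` is a difference of two fourth powers, `e` the product of their roots
  obtain ⟨r, s, hr, hs, hrs, he', hdiff⟩ : ∃ r s : ℤ, r ≠ 0 ∧ s ≠ 0 ∧ IsCoprime r s ∧
      r * s = |e| ∧
      (m ^ 2 + 3 * e ^ 2 = r ^ 4 - s ^ 4 ∨ m ^ 2 + 3 * e ^ 2 = -(r ^ 4 - s ^ 4)) := by
    have hcopA : ∀ q : ℤ, Prime q → q ∣ m ^ 2 + 3 * e ^ 2 → q ∣ e → False := by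
      intro q hq hA hqe
      have h' := dvd_sub hA ((hqe.pow two_ne_zero).mul_left 3)
      rw [add_sub_cancel_right] at h'
      exact not_prime_dvd_coprime hco hq (hq.dvd_of_dvd_pow h') hqe
    rcases Int.even_or_odd (m ^ 2 + 3 * e ^ 2) with hAe | hAo
    · -- both odd
      have hme : Odd m ∧ Odd e := by
        rcases Int.even_or_odd e with he2 | he2
        · exfalso
          rcases Int.even_or_odd m with hm2 | hm2
          · exact not_prime_dvd_coprime hco Int.prime_two hm2.two_dvd he2.two_dvd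
          · exact Int.not_even_iff_odd.2
              (hm2.pow.add_even ((he2.pow_of_ne_zero two_ne_zero).mul_left 3)) hAe
        · refine ⟨?_, he2⟩
          rw [← Int.not_even_iff_odd]; intro hm2
          exact Int.not_even_iff_odd.2
            ((hm2.pow_of_ne_zero two_ne_zero).add_odd (Odd.mul ⟨1, by norm_num⟩ he2.pow)) hAe
      obtain ⟨i, hi⟩ := odd_sq_eight m hme.1
      obtain ⟨j, hj⟩ := odd_sq_eight e hme.2
      set a := 2 * i + 6 * j + 1 with ha
      have hA : m ^ 2 + 3 * e ^ 2 = 4 * a := by rw [hi, hj, ha]; ring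
      have hn2 : n ^ 2 = 4 * (4 * a ^ 2 + e ^ 4) := by
        linear_combination h + (m ^ 2 + 3 * e ^ 2 + 4 * a) * hA
      obtain ⟨k, rfl⟩ : Even n := by
        have : Even (n ^ 2) := ⟨2 * (4 * a ^ 2 + e ^ 4), by rw [hn2]; ring⟩
        exact (Int.even_pow.1 this).1
      have hab : (k - 2 * a) * (k + 2 * a) = 1 * e ^ 4 := by
        apply mul_left_cancel₀ (four_ne_zero (α := ℤ))
        linear_combination hn2
      have hcop : IsCoprime (k - 2 * a) (k + 2 * a) := by
        apply coprime_of_no_prime (fun h0 => by omega)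
        intro q hq hqa hqb
        refine hcopA q hq ?_ ?_
        · have h' := dvd_sub hqb hqa
          rwa [show k + 2 * a - (k - 2 * a) = 4 * a by ring, ← hA] at h'
        · have h' := hqa.mul_right (k + 2 * a)
          rw [hab, one_mul] at h'
          exact hq.dvd_of_dvd_pow h'
      obtain ⟨r, s, hr, hs, hrs, he', -, hd⟩ :=
        split4 (p := 2) (j := 0) (k := 1) (by norm_num) (by norm_num) hcop he hab
      refine ⟨r, s, hr, hs, hrs, he', ?_⟩
      rcases hd with h1 | h1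
      · exact Or.inl (by linear_combination hA + h1)
      · exact Or.inr (by linear_combination hA + h1)
    · obtain ⟨l, hl⟩ := hAo
      obtain ⟨k, hk⟩ : Odd n := by
        rw [← Int.not_even_iff_odd]; intro hn
        have h1 : Even (n ^ 2) := hn.pow_of_ne_zero two_ne_zero
        have e1 : n ^ 2 = (m ^ 2 + 3 * e ^ 2) ^ 2 + 2 * (2 * e ^ 4) := by rw [h]; ring
        rw [e1] at h1
        exact Int.not_even_iff_odd.2 ((Odd.pow ⟨l, hl⟩).add_even ⟨2 * e ^ 4, by ring⟩) h1
      have hab : (k - l) * (k + l + 1) = 1 * e ^ 4 := by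
        subst hk
        apply mul_left_cancel₀ (four_ne_zero (α := ℤ))
        linear_combination h + (m ^ 2 + 3 * e ^ 2 + 2 * l + 1) * hl
      have hcop : IsCoprime (k - l) (k + l + 1) := by
        apply coprime_of_no_prime (fun h0 => by omega)
        intro q hq hqa hqb
        refine hcopA q hq ?_ ?_
        · have h' := dvd_sub hqb hqa
          rwa [show k + l + 1 - (k - l) = 2 * l + 1 by ring, ← hl] at h'
        · have h' := hqa.mul_right (k + l + 1)
          rw [hab, one_mul] at h'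
          exact hq.dvd_of_dvd_pow h'
      obtain ⟨r, s, hr, hs, hrs, he', -, hd⟩ :=
        split4 (p := 2) (j := 0) (k := 1) (by norm_num) (by norm_num) hcop he hab
      refine ⟨r, s, hr, hs, hrs, he', ?_⟩
      rcases hd with h1 | h1
      · exact Or.inl (by linear_combination hl + h1)
      · exact Or.inr (by linear_combination hl + h1)
  have he2 : e ^ 2 = r ^ 2 * s ^ 2 := by rw [← sq_abs, ← he']; ring
  have hNrs : (r * s).natAbs = N := by rw [he', Int.natAbs_abs, hN]
  rcases hdiff with h1 | h1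
  · obtain ⟨g, h', n', hgh, hg, hh', hn', hlt⟩ :=
      thirteen_step hrs.symm hs hr (m := m) (by linear_combination h1 - 3 * he2)
    exact IH h'.natAbs (by rw [mul_comm] at hlt; omega) rfl (n := n') hgh hg hh' hn'
  · obtain ⟨g, h', n', hgh, hg, hh', hn', hlt⟩ :=
      thirteen_step hrs hr hs (m := m) (by linear_combination h1 - 3 * he2)
    exact IH h'.natAbs (by omega) rfl (n := n') hgh hg hh' hn'

/-- The only rational point with finite coordinates on `y²=x(x²+6x+13)` has `x = 0`. -/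
theorem thirteen_curve {x y : ℚ} (h : y ^ 2 = x * (x ^ 2 + 6 * x + 13)) : x = 0 := by
  by_contra hx
  have key : ∀ {p w : ℚ}, p ≠ 0 → w ^ 2 = p ^ 4 + 6 * p ^ 2 + 13 → False := by
    intro p w hp hw
    obtain ⟨m, e, n, hco, hm, he, -, hn⟩ :=
      quartic_square (A := 1) (B := 6) (C := 13) (w := w) hp (by rw [hw]; push_cast; ring)
    exact thirteen_quartic (n := n) hco hm he (by linear_combination hn)
  obtain ⟨d, p, hd, hdB, hp, hxp⟩ :=
    square_class (A := 6) (B := 13) (y := y) hx (by rw [h]; push_cast; ring)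
  have hQ : 0 < x ^ 2 + 6 * x + 13 := by nlinarith [sq_nonneg (x + 3)]
  have hxpos : 0 < x := by
    rcases lt_or_gt_of_ne hx with h0 | h0
    · have := mul_neg_of_neg_of_pos h0 hQ
      nlinarith [sq_nonneg y]
    · exact h0
  have hd0 : 0 < d := by
    have hp2 : 0 < p ^ 2 := by positivity
    rw [hxp] at hxpos
    exact_mod_cast pos_of_mul_pos_left hxpos hp2.le
  have hdd : d = 1 ∨ d = 13 := by
    have h1 : d.natAbs ∣ 13 := Int.natAbs_dvd_natAbs.2 hdB
    rcases (Nat.dvd_prime (by norm_num)).1 h1 with h2 | h2 <;> omega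
  rcases hdd with rfl | rfl
  · exact key hp (w := y / p) (by rw [div_pow, h, hxp]; push_cast; field_simp)
  · exact key (p := 1 / p) (one_div_ne_zero hp) (w := y / (13 * p ^ 3))
      (by rw [div_pow, h, hxp]; push_cast; field_simp; ring)

end Fermat.Agent.SmallP
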