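import Fermat.Agent.SmallP.Descent
import Fermat.Agent.Isogeny.TateNormalForm

/-!
The Tate normal form families of orders 5, 7, 13 have no member with full rational 2-torsion.
-/

open WeierstrassCurve WeierstrassCurve.Affine
open Fermat.Agent.Isogeny

namespace Fermat.Agent.SmallP

lemma tateCurve_Δ (b c : ℚ) :
    (tateCurve b c).Δ
      = b ^ 3 * (16 * b ^ 2 - b * (8 * c ^ 2 + 20 * c - 1) - c * (1 - c) ^ 3) := by
  simp only [tateCurve, WeierstrassCurve.Δ, WeierstrassCurve.b₂, WeierstrassCurve.b₄,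
    WeierstrassCurve.b₆, WeierstrassCurve.b₈]
  ring

/-- A point of order two gives a root of the two-division cubic. -/
lemma exists_root_of_order_two {W : WeierstrassCurve ℚ} (T : W.toAffine.Point)
    (h : addOrderOf T = 2) :
    ∃ x y hT, T = Point.some x y hT ∧ 2 * y + W.a₁ * x + W.a₃ = 0 ∧
      4 * x ^ 3 + W.b₂ * x ^ 2 + 2 * W.b₄ * x + W.b₆ = 0 := by
  have hne : T ≠ 0 := by
    intro h0; rw [h0, addOrderOf_zero] at h; omega
  have h2 : 2 • T = 0 := h ▸ addOrderOf_nsmul_eq_zero T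
  rw [two_nsmul, add_eq_zero_iff_eq_neg] at h2
  cases T with
  | zero => exact absurd rfl hne
  | some x y hT =>
    rw [Point.neg_some, Point.some.injEq] at h2
    have hy : 2 * y + W.a₁ * x + W.a₃ = 0 := by
      have h3 := h2.2
      simp only [negY] at h3
      linear_combination h3
    refine ⟨x, y, hT, rfl, hy, ?_⟩
    have heq := (W.toAffine.equation_iff x y).1 hT.1
    simp only [WeierstrassCurve.b₂, WeierstrassCurve.b₄, WeierstrassCurve.b₆]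
    linear_combination (2 * y + W.a₁ * x + W.a₃) * hy - 4 * heq

/-- Two distinct points of order two make the discriminant a square. -/
lemma isSquare_Δ_of_two {W : WeierstrassCurve ℚ} (T₁ T₂ : W.toAffine.Point)
    (h₁ : addOrderOf T₁ = 2) (h₂ : addOrderOf T₂ = 2) (hne : T₁ ≠ T₂) :
    ∃ δ : ℚ, δ ^ 2 = W.Δ := by
  obtain ⟨e₁, y₁, hT₁, rfl, hy₁, hr₁⟩ := exists_root_of_order_two T₁ h₁
  obtain ⟨e₂, y₂, hT₂, rfl, hy₂, hr₂⟩ := exists_root_of_order_two T₂ h₂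
  have he : e₁ - e₂ ≠ 0 := by
    intro h0
    have hee : e₁ = e₂ := sub_eq_zero.1 h0
    subst hee
    have hyy : y₁ = y₂ := by linarith
    subst hyy
    exact hne rfl
  obtain ⟨e₃, hb2⟩ : ∃ e₃, W.b₂ = -4 * (e₁ + e₂ + e₃) :=
    ⟨-W.b₂ / 4 - e₁ - e₂, by ring⟩
  rw [hb2] at hr₁ hr₂
  have hb4 : W.b₄ = 2 * (e₁ * e₂ + e₁ * e₃ + e₂ * e₃) :=
    mul_left_cancel₀ he (by linear_combination (hr₁ - hr₂) / 2)
  rw [hb4] at hr₁
  have hb6 : W.b₆ = -4 * (e₁ * e₂ * e₃) := by linear_combination hr₁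
  have hb8 : W.b₈ = (W.b₂ * W.b₆ - W.b₄ ^ 2) / 4 := by
    have h := W.b_relation
    linarith
  refine ⟨4 * ((e₁ - e₂) * (e₁ - e₃) * (e₂ - e₃)), ?_⟩
  rw [WeierstrassCurve.Δ, hb8, hb2, hb4, hb6]
  ring

/-- The discriminant of Tate's normal form of order 5 is never a nonzero square. -/
theorem tate_five_false {b δ : ℚ} (hb : b ≠ 0) (h : δ ^ 2 = (tateCurve b b).Δ) : False := by
  rw [tateCurve_Δ] at h
  refine hb (five_curve (y := δ / b ^ 2) ?_)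
  rw [div_pow, h]; field_simp; ring

/-- Tate's normal form of order 7 has no rational 2-division point. -/
theorem tate_seven_false {b c d x : ℚ} (hd0 : d ≠ 0) (hd1 : d ≠ 1) (hb : b = d ^ 3 - d ^ 2)
    (hc : c = d ^ 2 - d)
    (h : 4 * x ^ 3 + (tateCurve b c).b₂ * x ^ 2 + 2 * (tateCurve b c).b₄ * x
      + (tateCurve b c).b₆ = 0) : False := by
  simp only [tateCurve, WeierstrassCurve.b₂, WeierstrassCurve.b₄, WeierstrassCurve.b₆] at h
  have hc0 : c ≠ 0 := by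
    rw [hc, show d ^ 2 - d = d * (d - 1) by ring]
    exact mul_ne_zero hd0 (sub_ne_zero.2 hd1)
  have hbc : b = d * c := by rw [hb, hc]; ring
  have hx0 : x ≠ 0 := by
    rintro rfl
    exact mul_ne_zero hd0 hc0 (hbc ▸ (pow_eq_zero_iff two_ne_zero).1 (by linear_combination h))
  obtain ⟨z, hz⟩ : ∃ z, (1 - c) * x - b = 2 * c * z * x :=
    ⟨((1 - c) * x - b) / (2 * c * x), by field_simp⟩
  have hx : x = b - c ^ 2 * z ^ 2 := by
    apply mul_left_cancel₀ (mul_ne_zero (pow_ne_zero 2 hx0) (four_ne_zero (α := ℚ)))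
    linear_combination h - ((1 - c) * x - b + 2 * c * z * x) * hz
  have hq : d ^ 2 * z ^ 2 * (2 * z + 1) - d * (2 * z + 1) * (z ^ 2 + 1) - z ^ 2 = 0 := by
    apply mul_left_cancel₀ (pow_ne_zero 2 hc0)
    rw [hx, hbc] at hz
    subst hc
    linear_combination hz
  have hz0 : z ≠ 0 := by
    rintro rfl
    exact hd0 (by linear_combination -hq)
  have hz1 : z + 1 ≠ 0 := by
    intro h0
    have hzz : z = -1 := by linarith
    subst hzz
    exact hd1 (sub_eq_zero.1 ((pow_eq_zero_iff two_ne_zero).1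
      (show (d - 1) ^ 2 = 0 by linear_combination -hq)))
  have hk : 2 * z + 1 ≠ 0 := by
    intro h0
    rw [h0] at hq
    exact hz0 ((pow_eq_zero_iff two_ne_zero).1 (by linear_combination -hq))
  have hcurve : (4 * (2 * d * z ^ 2 * (2 * z + 1) - (2 * z + 1) * (z ^ 2 + 1)) / (z + 1) ^ 3) ^ 2
      = 4 * (2 * z + 1) / (z + 1) * ((4 * (2 * z + 1) / (z + 1)) ^ 2
        - 11 * (4 * (2 * z + 1) / (z + 1)) + 32) := by
    field_simp
    linear_combination (16 * z ^ 2) * hq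
  rcases seven_curve hcurve with h0 | h0 | h0 <;> field_simp at h0
  · exact hk (by linarith)
  · exact hz0 (by linarith)
  · linarith

lemma cubic_no_root (x : ℚ) : x ^ 3 + 4 * x ^ 2 + x - 1 ≠ 0 := by
  intro h
  have hd : (x.den : ℚ) ≠ 0 := by exact_mod_cast x.den_nz
  have h' : x.num ^ 3 + 4 * x.num ^ 2 * (x.den : ℤ) + x.num * (x.den : ℤ) ^ 2
      - (x.den : ℤ) ^ 3 = 0 := by
    rw [← Rat.num_div_den x] at h
    field_simp at h
    exact_mod_cast (by linear_combination h : ((x.num : ℚ) ^ 3 + 4 * (x.num : ℚ) ^ 2 * x.den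
      + (x.num : ℚ) * (x.den : ℚ) ^ 2 - (x.den : ℚ) ^ 3 = 0))
  have hco : IsCoprime x.num (x.den : ℤ) :=
    Int.isCoprime_iff_nat_coprime.2 (by simpa using x.reduced)
  have hden : IsUnit (x.den : ℤ) := by
    refine (hco.pow_left (m := 3)).isUnit_of_dvd'
      ⟨-4 * x.num ^ 2 - x.num * (x.den : ℤ) + (x.den : ℤ) ^ 2, ?_⟩ (dvd_refl _)
    linear_combination h'
  have hden1 : (x.den : ℤ) = 1 := by
    rcases Int.isUnit_iff.1 hden with h1 | h1 <;> omega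
  rw [hden1] at h'
  have hn : IsUnit x.num :=
    isUnit_iff_dvd_one.2 ⟨x.num ^ 2 + 4 * x.num + 1, by linear_combination -h'⟩
  rcases Int.isUnit_iff.1 hn with h1 | h1 <;> rw [h1] at h' <;> norm_num at h'

lemma thirteen_identity {x y : ℚ}
    (hG : y ^ 2 + (x ^ 3 + x ^ 2 + 1) * y - x ^ 2 - x = 0) :
    -(y + 1) *
      (16 * ((1 - x * y) * (-x * y * (y + 1 - x * y))) ^ 2 * (y + 1) ^ 2
        - (1 - x * y) * (-x * y * (y + 1 - x * y))
          * (8 * (-x * y * (y + 1 - x * y)) ^ 2 + 20 * (-x * y * (y + 1 - x * y)) * (y + 1)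
            - (y + 1) ^ 2) * (y + 1)
        - (-x * y * (y + 1 - x * y)) * (y + 1 - (-x * y * (y + 1 - x * y))) ^ 3)
      * (x ^ 3 + 4 * x ^ 2 + x - 1)
      * ((x ^ 3 + 4 * x ^ 2 + x - 1) ^ 2 - 6 * (x ^ 3 + 4 * x ^ 2 + x - 1) * (x * (x + 1))
        + 13 * (x * (x + 1)) ^ 2)
    = (1 - x * y) * (-x * y * (y + 1 - x * y))
      * ((x ^ 7 + 6 * x ^ 6 + 12 * x ^ 5 + 16 * x ^ 4 + 14 * x ^ 3 + 4 * x ^ 2 - 2 * x - 1)
        + y * (-x ^ 6 - 5 * x ^ 5 - 3 * x ^ 4 + 9 * x ^ 3 + 7 * x ^ 2 - x - 1)) ^ 2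
      * y ^ 4 * (x * (x + 1)) := by
  linear_combination (x^16*y^6 - 2*x^15*y^7 + 11*x^15*y^6 - x^15*y^5 - 21*x^14*y^7 + 50*x^14*y^6 - 12*x^14*y^5 - 84*x^13*y^7 + 132*x^13*y^6 - 60*x^13*y^5 - 135*x^12*y^7 + 262*x^12*y^6 - 168*x^12*y^5 + 29*x^11*y^7 + 421*x^11*y^6 - 319*x^11*y^5 - x^11*y^4 + 329*x^10*y^7 + 323*x^10*y^6 - 499*x^10*y^5 - 6*x^10*y^4 + 254*x^9*y^7 - 278*x^9*y^6 - 616*x^9*y^5 - 10*x^9*y^4 - 166*x^8*y^7 - 727*x^8*y^6 - 445*x^8*y^5 - 7*x^8*y^4 - 217*x^7*y^7 - 350*x^7*y^6 - 78*x^7*y^5 - 13*x^7*y^4 - 22*x^6*y^7 + 50*x^6*y^6 + 44*x^6*y^5 - 29*x^6*y^4 + 29*x^5*y^7 + 52*x^5*y^6 - 4*x^5*y^5 - 21*x^5*y^4 + 7*x^4*y^7 + 3*x^4*y^6 - 7*x^4*y^5 - 2*x^4*y^4 - x^3*y^7 - x^3*y^6 + 3*x^3*y^5 + 3*x^3*y^4 + x^2*y^6 + 2*x^2*y^5 + x^2*y^4) * hG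

/-- The discriminant of Tate's normal form of order 13 is never a square. -/
theorem tate_thirteen_false {b c r s δ : ℚ} (hb : b = r * s * (r - 1)) (hc : c = s * (r - 1))
    (hr : r ≠ 0) (hr1 : r ≠ 1) (hs : s ≠ 0) (hs1 : s ≠ 1) (hrs : r ≠ s)
    (hF : r ^ 3 - r ^ 2 * s ^ 4 + 5 * r ^ 2 * s ^ 3 - 9 * r ^ 2 * s ^ 2 + 4 * r ^ 2 * s
      - 2 * r ^ 2 - r * s ^ 3 + 6 * r * s ^ 2 - 3 * r * s + r - s ^ 3 = 0)
    (h : δ ^ 2 = (tateCurve b c).Δ) (hΔ : (tateCurve b c).Δ ≠ 0) : False := by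
  have hs1' : 1 - s ≠ 0 := sub_ne_zero.2 (Ne.symm hs1)
  obtain ⟨x, y, hy, hy1, hx, hxr, hxs⟩ : ∃ x y : ℚ, y ≠ 0 ∧ y + 1 ≠ 0 ∧ x ≠ 0 ∧
      r = 1 - x * y ∧ s = (y + 1 - x * y) / (y + 1) := by
    have hy : (s - r) / (1 - s) ≠ 0 := div_ne_zero (sub_ne_zero.2 (Ne.symm hrs)) hs1'
    have hy1 : (s - r) / (1 - s) + 1 = (1 - r) / (1 - s) := by field_simp; ring
    have hr1' : 1 - r ≠ 0 := sub_ne_zero.2 (Ne.symm hr1)
    refine ⟨(1 - r) / ((s - r) / (1 - s)), (s - r) / (1 - s), hy, ?_, div_ne_zero hr1' hy, ?_, ?_⟩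
    · rw [hy1]; exact div_ne_zero hr1' hs1'
    · rw [div_mul_cancel₀ _ hy]; ring
    · rw [div_mul_cancel₀ _ hy, hy1]; field_simp; ring
  have hG : y ^ 2 + (x ^ 3 + x ^ 2 + 1) * y - x ^ 2 - x = 0 := by
    rw [hxr, hxs] at hF
    field_simp at hF
    apply mul_left_cancel₀ (mul_ne_zero (pow_ne_zero 3 hx) (pow_ne_zero 5 hy))
    linear_combination -hF
  have hx1 : x + 1 ≠ 0 := by
    intro h0
    have hxx : x = -1 := by linarith
    subst hxx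
    exact mul_ne_zero hy hy1 (by linear_combination hG)
  have hD : x * (x + 1) ≠ 0 := mul_ne_zero hx hx1
  have hδ : δ ≠ 0 := by
    rintro rfl
    exact hΔ (by rw [← h]; ring)
  have key := thirteen_identity hG
  set N := x ^ 3 + 4 * x ^ 2 + x - 1 with hN
  set W := (x ^ 7 + 6 * x ^ 6 + 12 * x ^ 5 + 16 * x ^ 4 + 14 * x ^ 3 + 4 * x ^ 2 - 2 * x - 1)
      + y * (-x ^ 6 - 5 * x ^ 5 - 3 * x ^ 4 + 9 * x ^ 3 + 7 * x ^ 2 - x - 1) with hW
  set D := x * (x + 1) with hD'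
  set cp := -x * y * (y + 1 - x * y) with hcp
  have hc' : cp = c * (y + 1) := by rw [hcp, hc, hxr, hxs]; field_simp; ring
  have hb' : (1 - x * y) * cp = b * (y + 1) := by rw [hc', hb, hc, hxr]; ring
  rw [hb', hc'] at key
  rw [tateCurve_Δ] at h hΔ
  have hb0 : b ≠ 0 := by
    rw [hb]; exact mul_ne_zero (mul_ne_zero hr hs) (sub_ne_zero.2 hr1)
  have hT := thirteen_curve (x := -N / D)
    (y := b ^ 2 * W * y ^ 2 / (δ * (y + 1) ^ 2 * D)) (by
      rw [div_pow, mul_pow (δ * (y + 1) ^ 2), mul_pow δ, h]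
      clear_value N W D cp
      field_simp
      rw [div_eq_iff (fun h0 => hΔ (by linear_combination b ^ 3 * h0))]
      apply mul_left_cancel₀ hy1
      linear_combination -key)
  have hN0 : N = 0 := by
    rcases div_eq_zero_iff.1 hT with h0 | h0
    · exact neg_eq_zero.1 h0
    · exact absurd h0 hD
  exact cubic_no_root x hN0

end Fermat.Agent.SmallP
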