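import Mathlib

/-!
Elementary tools for the small-prime rank zero descents.
-/

namespace Fermat.Agent.SmallP

lemma coprime_of_no_prime {a b : ℤ} (hne : ¬ (a = 0 ∧ b = 0))
    (h : ∀ q : ℤ, Prime q → q ∣ a → q ∣ b → False) : IsCoprime a b :=
  isCoprime_of_prime_dvd hne fun q hq ha hb => h q hq ha hb

lemma not_prime_dvd_coprime {m e q : ℤ} (hco : IsCoprime m e) (hq : Prime q) (hm : q ∣ m)
    (he : q ∣ e) : False :=
  hq.not_isUnit (hco.isUnit_of_dvd' hm he)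

/-- A coprime factorisation of a prime power times a fourth power. -/
lemma split4_nat {p j : ℕ} (hp : p.Prime) {a b c : ℕ} (hco : a.Coprime b)
    (h : a * b = p ^ j * c ^ 4) :
    ∃ r s : ℕ, c = r * s ∧
      ((a = r ^ 4 ∧ b = p ^ j * s ^ 4) ∨ (b = r ^ 4 ∧ a = p ^ j * s ^ 4)) := by
  have hk0 : p ^ j ≠ 0 := pow_ne_zero _ hp.ne_zero
  have key : ∀ a b : ℕ, a.Coprime b → a * b = p ^ j * c ^ 4 → p ^ j ∣ b →
      ∃ r s : ℕ, c = r * s ∧ a = r ^ 4 ∧ b = p ^ j * s ^ 4 := by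
    intro a b hco h hdvd
    obtain ⟨b', rfl⟩ := hdvd
    have h' : a * b' = c ^ 4 := by
      apply mul_left_cancel₀ hk0
      rw [← h]; ring
    have hco' : a.Coprime b' := Nat.Coprime.coprime_dvd_right (dvd_mul_left _ _) hco
    obtain ⟨r, hr⟩ := exists_eq_pow_of_mul_eq_pow (Nat.isUnit_iff.2 hco') h'
    obtain ⟨s, hs⟩ := exists_eq_pow_of_mul_eq_pow (a := b') (b := a)
      (Nat.isUnit_iff.2 hco'.symm) (by rw [mul_comm]; exact h')
    refine ⟨r, s, ?_, hr, by rw [hs]⟩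
    have : (r * s) ^ 4 = c ^ 4 := by rw [mul_pow, ← hr, ← hs, h']
    exact (Nat.pow_left_injective (by norm_num) this).symm
  have hdvd : p ^ j ∣ a * b := h ▸ dvd_mul_right _ _
  by_cases hpa : p ∣ a
  · have hpb : p.Coprime b := Nat.Coprime.coprime_dvd_left hpa hco
    have : p ^ j ∣ a := (Nat.Coprime.pow_left j hpb).dvd_of_dvd_mul_right hdvd
    obtain ⟨r, s, h1, h2, h3⟩ := key b a hco.symm (by rw [mul_comm]; exact h) this
    exact ⟨r, s, h1, Or.inr ⟨h2, h3⟩⟩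
  · have hpa' : p.Coprime a := hp.coprime_iff_not_dvd.2 hpa
    have : p ^ j ∣ b := (Nat.Coprime.pow_left j hpa').dvd_of_dvd_mul_left hdvd
    obtain ⟨r, s, h1, h2, h3⟩ := key a b hco h this
    exact ⟨r, s, h1, Or.inl ⟨h2, h3⟩⟩

/-- If coprime integers multiply to `p^j * c^4`, both their sum and their difference have
a standard shape. -/
lemma split4 {p j : ℕ} (hp : p.Prime) {a b c k : ℤ} (hk : k = (p ^ j : ℕ)) (hco : IsCoprime a b)
    (hc : c ≠ 0) (h : a * b = k * c ^ 4) :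
    ∃ r s : ℤ, r ≠ 0 ∧ s ≠ 0 ∧ IsCoprime r s ∧ r * s = |c| ∧
      (a + b = r ^ 4 + k * s ^ 4 ∨ a + b = -(r ^ 4 + k * s ^ 4)) ∧
      (b - a = r ^ 4 - k * s ^ 4 ∨ b - a = -(r ^ 4 - k * s ^ 4)) := by
  have hkpos : 0 < k := by rw [hk]; exact_mod_cast pow_pos hp.pos j
  have habs : a.natAbs * b.natAbs = p ^ j * c.natAbs ^ 4 := by
    rw [← Int.natAbs_mul, h, Int.natAbs_mul, Int.natAbs_pow, hk, Int.natAbs_natCast]
  have hcoN : a.natAbs.Coprime b.natAbs := Int.isCoprime_iff_nat_coprime.1 hco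
  obtain ⟨r, s, hrs, hcase⟩ := split4_nat hp hcoN habs
  have hc' : c.natAbs ≠ 0 := Int.natAbs_ne_zero.2 hc
  have hr : r ≠ 0 := fun h0 => hc' (by rw [hrs, h0, zero_mul])
  have hs : s ≠ 0 := fun h0 => hc' (by rw [hrs, h0, mul_zero])
  have hco' : r.Coprime s := by
    rcases hcase with ⟨ha, hb⟩ | ⟨hb, ha⟩
    · rw [ha, hb] at hcoN
      exact Nat.Coprime.coprime_dvd_left (dvd_pow_self r (by norm_num))
        (Nat.Coprime.coprime_dvd_right ((dvd_pow_self s (by norm_num)).mul_left _) hcoN)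
    · rw [ha, hb] at hcoN
      exact (Nat.Coprime.coprime_dvd_right (dvd_pow_self r (by norm_num))
        (Nat.Coprime.coprime_dvd_left ((dvd_pow_self s (by norm_num)).mul_left _) hcoN)).symm
  refine ⟨r, s, by exact_mod_cast hr, by exact_mod_cast hs, ?_, ?_, ?_⟩
  · exact Int.isCoprime_iff_nat_coprime.2 (by simpa using hco')
  · rw [Int.abs_eq_natAbs, hrs]; push_cast; ring
  · have hpos : 0 < a * b := by
      rw [h]; exact mul_pos hkpos (by positivity)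
    rcases pos_and_pos_or_neg_and_neg_of_mul_pos hpos with ⟨ha, hb⟩ | ⟨ha, hb⟩
    · have ea : a = (a.natAbs : ℤ) := by omega
      have eb : b = (b.natAbs : ℤ) := by omega
      rcases hcase with ⟨h1, h2⟩ | ⟨h2, h1⟩ <;> rw [h1] at ea <;> rw [h2] at eb <;>
        rw [ea, eb, hk] <;> push_cast
      · exact ⟨Or.inl (by ring), Or.inr (by ring)⟩
      · exact ⟨Or.inl (by ring), Or.inl (by ring)⟩
    · have ea : a = -(a.natAbs : ℤ) := by omega
      have eb : b = -(b.natAbs : ℤ) := by omega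
      rcases hcase with ⟨h1, h2⟩ | ⟨h2, h1⟩ <;> rw [h1] at ea <;> rw [h2] at eb <;>
        rw [ea, eb, hk] <;> push_cast
      · exact ⟨Or.inr (by ring), Or.inl (by ring)⟩
      · exact ⟨Or.inr (by ring), Or.inr (by ring)⟩

lemma sq_four_mod (m : ℤ) : m ^ 2 % 4 = 0 ∨ m ^ 2 % 4 = 1 := by
  rcases Int.even_or_odd' m with ⟨k, rfl | rfl⟩ <;> ring_nf <;> omega

lemma odd_sq_eight (m : ℤ) (h : Odd m) : ∃ i : ℤ, m ^ 2 = 8 * i + 1 := by
  obtain ⟨k, rfl⟩ := h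
  obtain ⟨i, hi⟩ := Int.even_mul_succ_self k
  exact ⟨i, by linear_combination 4 * hi⟩

lemma cast_four_even {m : ℤ} (h : Even m) : 4 * (m : ZMod 8) = 0 := by
  obtain ⟨k, rfl⟩ := h
  push_cast
  have h8 : (8 : ZMod 8) = 0 := by decide
  linear_combination (k : ZMod 8) * h8

lemma cast_four_odd {m : ℤ} (h : Odd m) : 4 * (m : ZMod 8) = 4 := by
  obtain ⟨k, rfl⟩ := h
  push_cast
  have h8 : (8 : ZMod 8) = 0 := by decide
  linear_combination (k : ZMod 8) * h8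

lemma abs_le_mul (a b : ℤ) (ha : a ≠ 0) : b.natAbs ≤ (a * b).natAbs := by
  rw [Int.natAbs_mul]
  exact Nat.le_mul_of_pos_left _ (Int.natAbs_pos.2 ha)

/-- An integer which is a square of a rational is a square of an integer. -/
lemma exists_int_sq {N : ℤ} {q : ℚ} (h : (N : ℚ) = q ^ 2) : ∃ w : ℤ, N = w ^ 2 := by
  obtain ⟨w, hw⟩ := Rat.isSquare_intCast_iff.1 ⟨q, by rw [h, sq]⟩
  exact ⟨w, by rw [hw, sq]⟩

/-- The square class of the `x`-coordinate of a rational point on `y²=x(x²+Ax+B)`. -/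
lemma square_class {A B : ℤ} {x y : ℚ} (hx : x ≠ 0)
    (h : y ^ 2 = x * (x ^ 2 + A * x + B)) :
    ∃ (d : ℤ) (p : ℚ), Squarefree d ∧ d ∣ B ∧ p ≠ 0 ∧ x = d * p ^ 2 := by
  set u := x.num with hu
  set v : ℤ := (x.den : ℤ) with hv
  have hvpos : 0 < v := by rw [hv]; exact_mod_cast x.pos
  have hv0 : (v : ℚ) ≠ 0 := by exact_mod_cast hvpos.ne'
  have hxuv : x = u / v := by rw [hu, hv, Int.cast_natCast]; exact (Rat.num_div_den x).symm
  have huv : IsCoprime u v := by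
    rw [Int.isCoprime_iff_nat_coprime, hu, hv, Int.natAbs_natCast]; exact x.reduced
  set Q := u ^ 2 + A * (u * v) + B * v ^ 2 with hQ
  obtain ⟨w, hw⟩ := exists_int_sq (N := v * (u * Q)) (q := y * v ^ 2) (by
    rw [mul_pow, h, hxuv, hQ]; push_cast; field_simp)
  have hcoQ : IsCoprime v (u * Q) := by
    refine IsCoprime.mul_right huv.symm ?_
    have hh := IsCoprime.add_mul_left_right (IsCoprime.pow_right huv.symm (n := 2)) (A * u + B * v)
    have hQ' : Q = u ^ 2 + v * (A * u + B * v) := by rw [hQ]; ring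
    rw [hQ']; exact hh
  obtain ⟨e, he⟩ := Int.sq_of_isCoprime hcoQ hw
  have he' : v = e ^ 2 := by
    rcases he with he | he
    · exact he
    · nlinarith [sq_nonneg e]
  have he0 : e ≠ 0 := fun h0 => hvpos.ne' (by rw [he', h0]; ring)
  obtain ⟨z, rfl⟩ : e ∣ w := by
    rw [← Int.pow_dvd_pow_iff two_ne_zero]
    exact ⟨u * Q, by rw [← hw, he']⟩
  have hz : u * Q = z ^ 2 := by
    apply mul_left_cancel₀ (pow_ne_zero 2 he0)
    rw [← he']; linear_combination hw + z ^ 2 * he'.symm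
  have hu0 : u ≠ 0 := Rat.num_ne_zero.2 hx
  obtain ⟨a, b, hab, hsf⟩ := Nat.sq_mul_squarefree u.natAbs
  obtain ⟨d, m, hd, hum⟩ : ∃ d m : ℤ, Squarefree d ∧ u = m ^ 2 * d := by
    rcases Int.natAbs_eq u with hs | hs
    · exact ⟨a, b, Int.squarefree_natCast.2 hsf, by rw [hs, ← hab]; push_cast; ring⟩
    · refine ⟨-(a : ℤ), b, ?_, by rw [hs, ← hab]; push_cast; ring⟩
      rw [← Int.squarefree_natAbs]; simpa using hsf
  have hm0 : m ≠ 0 := fun h0 => hu0 (by rw [hum, h0]; ring)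
  obtain ⟨z', rfl⟩ : m ∣ z := by
    rw [← Int.pow_dvd_pow_iff two_ne_zero]
    exact ⟨d * Q, by rw [← hz, hum]; ring⟩
  have hdQ : d * Q = z' ^ 2 := by
    apply mul_left_cancel₀ (pow_ne_zero 2 hm0)
    linear_combination hz - Q * hum
  have hd0 : d ≠ 0 := hd.ne_zero
  have hdz : d ∣ z' := (hd.dvd_pow_iff_dvd two_ne_zero).1 ⟨Q, hdQ.symm⟩
  obtain ⟨z'', rfl⟩ := hdz
  have hdu : d ∣ u := ⟨m ^ 2, by rw [hum]; ring⟩
  have hdB : d ∣ B * v ^ 2 := by
    have hQd : d ∣ Q := ⟨z'' ^ 2, mul_left_cancel₀ hd0 (by rw [hdQ]; ring)⟩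
    have : B * v ^ 2 = Q - u * (u + A * v) := by rw [hQ]; ring
    rw [this]
    exact dvd_sub hQd (hdu.mul_right _)
  have hdv : IsCoprime d v := IsCoprime.of_isCoprime_of_dvd_left huv hdu
  refine ⟨d, m / e, hd, hdv.pow_right.dvd_of_dvd_mul_right hdB, ?_, ?_⟩
  · exact div_ne_zero (by exact_mod_cast hm0) (by exact_mod_cast he0)
  · rw [hxuv, hum, he']; push_cast; ring

/-- Clear denominators in a quartic square. -/
lemma quartic_square {A B C : ℤ} {p w : ℚ} (hp : p ≠ 0)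
    (h : w ^ 2 = A * p ^ 4 + B * p ^ 2 + C) :
    ∃ m e n : ℤ, IsCoprime m e ∧ m ≠ 0 ∧ e ≠ 0 ∧ p = m / e ∧
      n ^ 2 = A * m ^ 4 + B * m ^ 2 * e ^ 2 + C * e ^ 4 := by
  have key : ∀ m e : ℤ, e ≠ 0 → p = m / e →
      ∃ n : ℤ, n ^ 2 = A * m ^ 4 + B * m ^ 2 * e ^ 2 + C * e ^ 4 := by
    intro m e he hpe
    have he' : (e : ℚ) ≠ 0 := by exact_mod_cast he
    obtain ⟨n, hn⟩ := exists_int_sq (N := A * m ^ 4 + B * m ^ 2 * e ^ 2 + C * e ^ 4)
      (q := w * (e : ℚ) ^ 2) (by rw [mul_pow, h, hpe]; push_cast; field_simp)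
    exact ⟨n, hn.symm⟩
  have hpe : p = (p.num : ℚ) / ((p.den : ℤ) : ℚ) := by
    rw [Int.cast_natCast]; exact (Rat.num_div_den p).symm
  obtain ⟨n, hn⟩ := key p.num p.den (by exact_mod_cast p.den_nz) hpe
  exact ⟨p.num, p.den, n, Int.isCoprime_iff_nat_coprime.2 (by simpa using p.reduced),
    Rat.num_ne_zero.2 hp, by exact_mod_cast p.den_nz, hpe, hn⟩

end Fermat.Agent.SmallP
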